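import Fermat.Agent.ArtinProcesi.Identities
import Mathlib.Algebra.Azumaya.Defs
import Mathlib.Algebra.Module.Projective
import Mathlib.LinearAlgebra.Finsupp.LinearCombination

/-!
# The criterion for an Azumaya algebra

If the values of the central polynomial are central, satisfy Cramer's rule and generate the unit
ideal, then they give a finite dual basis over the centre and the coordinate forms are sums of
maps `y ↦ p * y * q`.
-/

set_option autoImplicit false

noncomputable section

namespace FA.ArtinProcesi

open Equiv
open scoped TensorProduct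
open FA.Posner

variable {n : ℕ} {B : Type*} [Ring B]

/-- A word is of degree one in each variable. -/
theorem exists_split_word {V : Type*} [DecidableEq V] (x : V → B) {l : List V}
    (hl : l.Nodup) {v : V} (hv : v ∈ l) :
    ∃ P Q : B, ∀ y, (l.map (Function.update x v y)).prod = P * y * Q := by
  obtain ⟨s, t, rfl⟩ := List.append_of_mem hv
  rw [List.nodup_append, List.nodup_cons] at hl
  refine ⟨(s.map x).prod, (t.map x).prod, fun y => ?_⟩
  have hs : s.map (Function.update x v y) = s.map x := List.map_congr_left fun w hw =>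
    Function.update_of_ne (hl.2.2 w hw v List.mem_cons_self) _ _
  have ht : t.map (Function.update x v y) = t.map x := List.map_congr_left fun w hw =>
    Function.update_of_ne (fun e : w = v => hl.2.1.1 (e ▸ hw)) _ _
  simp [hs, ht, mul_assoc]

/-- **The criterion.** -/
theorem isAzumaya_of_identities
    (hcomm : ∀ (x : CVar n → B) (r : B), cPoly ℤ x * r = r * cPoly ℤ x)
    (hdual : ∀ (x : CVar n → B) (a : B),
      cPoly ℤ x * a = ∑ i, cPoly ℤ (Function.update x (slot i) a) * x (slot i))
    (hspan : Ideal.span (Set.range fun x : CVar n → B => cPoly ℤ x) = ⊤) :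
    IsAzumaya (Subring.center B) B := by
  classical
  set Z := Subring.center B
  obtain ⟨r, hr⟩ := Finsupp.mem_span_range_iff_exists_finsupp.1
    (show (1 : B) ∈ Submodule.span B (Set.range fun x : CVar n → B => cPoly ℤ x) from
      (Ideal.eq_top_iff_one _).1 hspan)
  let J := r.support × Fin (n * n)
  choose P Q hPQ using fun (j : J) t =>
    exists_split_word (j.1 : CVar n → B) (isFull_cWord t).1 ((isFull_cWord t).2 (slot j.2))
  have hmem : ∀ (j : J) y, cPoly ℤ (Function.update (j.1 : CVar n → B) (slot j.2) y) ∈ Z :=
    fun j y => Subring.mem_center_iff.2 fun g => (hcomm _ g).symm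
  have hsum : ∀ (j : J) y, cPoly ℤ (Function.update (j.1 : CVar n → B) (slot j.2) y) =
      ∑ t, (cCoeff Z t : B) * (P j t * y * Q j t) := fun j y => by
    rw [← cPoly_int (Z := Z)]
    exact Finset.sum_congr rfl fun t _ => by rw [hPQ]; rfl
  let lam : J → B →ₗ[Z] Z := fun j =>
    { toFun := fun y => ⟨_, hmem j y⟩
      map_add' := fun y y' => Subtype.ext (by
        simp only [hsum, Subring.coe_add, mul_add, add_mul, Finset.sum_add_distrib])
      map_smul' := fun z y => Subtype.ext (by
        simp only [hsum, RingHom.id_apply, smul_eq_mul, Subring.coe_mul, Finset.mul_sum,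
          Subring.smul_def]
        refine Finset.sum_congr rfl fun t _ => ?_
        have hz : ∀ g, g * (z : B) = z * g := Subring.mem_center_iff.1 z.2
        rw [← mul_assoc (P j t), hz (P j t), mul_assoc (z : B) (P j t), mul_assoc (z : B),
          ← mul_assoc _ (z : B), hz (cCoeff Z t : B), mul_assoc (z : B)]) }
  let g : J → B := fun j => r j.1 * (j.1 : CVar n → B) (slot j.2)
  have hlam : ∀ j y, (lam j y : B) = ∑ t, (cCoeff Z t : B) * (P j t * y * Q j t) := hsum
  have hbasis : ∀ y, ∑ j, lam j y • g j = y := fun y => by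
    conv_rhs => rw [← one_mul y, ← hr, Finsupp.sum, Finset.sum_mul, ← Finset.sum_attach]
    rw [Fintype.sum_prod_type]
    refine Finset.sum_congr rfl fun k _ => ?_
    rw [smul_eq_mul, mul_assoc, hdual, Finset.mul_sum]
    refine Finset.sum_congr rfl fun i _ => ?_
    rw [← mul_assoc, ← hcomm, mul_assoc]
    rfl
  have hmlr : ∀ j y, AlgHom.mulLeftRight Z B
      (∑ t, cCoeff Z t • (P j t ⊗ₜ[Z] MulOpposite.op (Q j t))) y = (lam j y : B) := fun j y => by
    simp [hlam, Subring.smul_def]
  have hproj : Module.Projective Z B :=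
    Module.Projective.of_split (LinearMap.pi lam) (Fintype.linearCombination Z g)
      (LinearMap.ext fun y => by simp [Fintype.linearCombination_apply, hbasis])
  have hfin : Module.Finite Z B :=
    ⟨Submodule.fg_def.2 ⟨_, Set.finite_range g, eq_top_iff.2 fun y _ => hbasis y ▸
      sum_mem fun j _ => Submodule.smul_mem _ _ (Submodule.subset_span ⟨j, rfl⟩)⟩⟩
  have hfaith : FaithfulSMul Z B :=
    (faithfulSMul_iff_algebraMap_injective Z B).2 Subtype.val_injective
  refine { bij := ⟨?_, fun f => ?_⟩ }
  · have hrep : ∀ T : B ⊗[Z] Bᵐᵒᵖ, T = ∑ j,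
        (∑ t, cCoeff Z t • (AlgHom.mulLeftRight Z B T (P j t) * Q j t)) ⊗ₜ[Z]
          MulOpposite.op (g j) := fun T => by
      induction T using TensorProduct.induction_on with
      | zero => simp
      | tmul a b =>
        have h : ∀ j, ∑ t, cCoeff Z t • (AlgHom.mulLeftRight Z B (a ⊗ₜ b) (P j t) * Q j t) =
            lam j b.unop • a := fun j => by
          simp only [AlgHom.mulLeftRight_apply, Subring.smul_def, smul_eq_mul]
          rw [← Subring.mem_center_iff.1 (lam j b.unop).2 a, hlam, Finset.mul_sum]
          refine Finset.sum_congr rfl fun t _ => ?_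
          rw [← mul_assoc a, Subring.mem_center_iff.1 (cCoeff Z t).2 a]
          simp only [mul_assoc]
        simp only [h, TensorProduct.smul_tmul, ← TensorProduct.tmul_sum, ← MulOpposite.op_smul]
        rw [← Finset.op_sum, hbasis, MulOpposite.op_unop]
      | add T T' hT hT' =>
        conv_lhs => rw [hT, hT']
        simp [add_mul, Finset.sum_add_distrib, TensorProduct.add_tmul]
    exact (injective_iff_map_eq_zero _).2 fun T h => by rw [hrep T, h]; simp
  · refine ⟨∑ j, (f (g j) ⊗ₜ[Z] 1) * ∑ t, cCoeff Z t • (P j t ⊗ₜ[Z] MulOpposite.op (Q j t)),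
      LinearMap.ext fun y => ?_⟩
    conv_rhs => rw [← hbasis y, map_sum]
    rw [map_sum, LinearMap.sum_apply]
    refine Finset.sum_congr rfl fun j _ => ?_
    rw [map_mul, Module.End.mul_apply, hmlr, map_smul, Subring.smul_def, smul_eq_mul]
    rw [AlgHom.mulLeftRight_apply]
    simpa using Subring.mem_center_iff.1 (lam j y).2 _

end FA.ArtinProcesi
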