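import Fermat.Agent.Posner.Rowen
import Mathlib.Data.Matrix.Block
import Mathlib.RingTheory.MatrixAlgebra

/-!
# Identities of matrices

The identities of `n × n` matrices over `K` hold over every extension field and for smaller
matrices. Among them are the centrality of Razmyslov's polynomial and Cramer's rule for it.
-/

set_option autoImplicit false

noncomputable section

namespace FA.ArtinProcesi

open Equiv Matrix
open scoped TensorProduct
open FA.Regev (IsMultiId)
open FA.Posner

/-- All multilinear identities of `n × n` matrices over `K` hold in `R`. -/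
def HasMatIds (K : Type*) [Field K] (n : ℕ) (R : Type*) [Ring R] [Algebra K R] : Prop :=
  ∀ (M : ℕ) (a : Perm (Fin M) → K), IsMultiId (Matrix (Fin n) (Fin n) K) a → IsMultiId R a

/-- All multilinear identities of `n × n` matrices over `K` hold modulo `I`. -/
def HasMatIdsMod (K : Type*) [Field K] (n : ℕ) {R : Type*} [Ring R] [Algebra K R]
    (I : TwoSidedIdeal R) : Prop :=
  ∀ (M : ℕ) (a : Perm (Fin M) → K), IsMultiId (Matrix (Fin n) (Fin n) K) a →
    ∀ x : Fin M → R, ∑ σ, a σ • (List.ofFn fun i => x (σ i)).prod ∈ I

theorem isFull_ofFn (M : ℕ) : IsFull fun σ : Perm (Fin M) => List.ofFn σ :=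
  fun σ => ⟨List.nodup_ofFn.2 σ.injective,
    fun v => List.mem_ofFn.2 ⟨σ.symm v, σ.apply_symm_apply v⟩⟩

theorem isMultiId_iff {K A : Type*} [Field K] [Ring A] [Algebra K A] {M : ℕ}
    (a : Perm (Fin M) → K) :
    IsMultiId A a ↔ ∀ x : Fin M → A, evalWords a (fun σ : Perm (Fin M) => List.ofFn σ) x = 0 := by
  simp [IsMultiId, evalWords, List.map_ofFn, Function.comp_def]

/-! ### Words and permutations -/

section convert

variable {K : Type*} [Field K] {V ι : Type*} [Fintype V] [Fintype ι] {l : ι → List V}

omit [Fintype ι] in
theorem exists_perm_map (e : V ≃ Fin (Fintype.card V)) (hl : IsFull l) (i : ι) :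
    ∃ π : Perm (Fin (Fintype.card V)), List.ofFn π = (l i).map e := by
  classical
  have hlen : ((l i).map e).length = Fintype.card V := by
    rw [List.length_map, ← List.toFinset_card_of_nodup (hl i).1, ← Finset.card_univ]
    exact congrArg _ (Finset.eq_univ_iff_forall.2 fun v => List.mem_toFinset.2 ((hl i).2 v))
  refine ⟨Equiv.ofBijective (fun j => ((l i).map e).get (Fin.cast hlen.symm j))
    (Finite.injective_iff_bijective.1
      (((hl i).1.map e.injective).injective_get.comp (Fin.cast_injective _))), ?_⟩
  exact List.ext_get (by simp [hlen]) fun j h1 h2 => by simp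

/-- The coefficients of a combination of words at the permutations. -/
def permCoeff (c : ι → K) (hl : IsFull l) (π : Perm (Fin (Fintype.card V))) : K := by
  classical
  exact ∑ i ∈ Finset.univ.filter
    (fun i => Classical.choose (exists_perm_map (Fintype.equivFin V) hl i) = π), c i

theorem sum_permCoeff {A : Type*} [Ring A] [Algebra K A] (c : ι → K) (hl : IsFull l)
    (x : V → A) :
    ∑ π, permCoeff c hl π •
        (List.ofFn fun j => x ((Fintype.equivFin V).symm (π j))).prod = evalWords c l x := by
  classical
  simp only [permCoeff, Finset.sum_smul, evalWords]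
  rw [← Finset.sum_fiberwise Finset.univ
    (fun i => Classical.choose (exists_perm_map (Fintype.equivFin V) hl i))]
  refine Finset.sum_congr rfl fun π _ => Finset.sum_congr rfl fun i hi => ?_
  have h := Classical.choose_spec (exists_perm_map (Fintype.equivFin V) hl i)
  rw [(Finset.mem_filter.1 hi).2] at h
  have h' := congrArg (List.map fun j => x ((Fintype.equivFin V).symm j)) h
  simp only [List.map_ofFn, List.map_map, Function.comp_def, Equiv.symm_apply_apply] at h'
  rw [h']

theorem isMultiId_permCoeff {A : Type*} [Ring A] [Algebra K A] (c : ι → K) (hl : IsFull l)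
    (h : ∀ x : V → A, evalWords c l x = 0) : IsMultiId A (permCoeff c hl) := fun y => by
  have h' := sum_permCoeff c hl fun v => y (Fintype.equivFin V v)
  simp only [Equiv.apply_symm_apply] at h'
  rw [h', h]

variable {R : Type*} [Ring R] [Algebra K R] {n : ℕ}

/-- **Transfer of identities in words.** -/
theorem HasMatIds.evalWords (hR : HasMatIds K n R) (c : ι → K) (hl : IsFull l)
    (h : ∀ x : V → Matrix (Fin n) (Fin n) K, Posner.evalWords c l x = 0) (x : V → R) :
    Posner.evalWords c l x = 0 := by
  rw [← sum_permCoeff c hl]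
  exact hR _ _ (isMultiId_permCoeff c hl h) fun j => x ((Fintype.equivFin V).symm j)

theorem HasMatIdsMod.evalWords {I : TwoSidedIdeal R} (hI : HasMatIdsMod K n I) (c : ι → K)
    (hl : IsFull l) (h : ∀ x : V → Matrix (Fin n) (Fin n) K, Posner.evalWords c l x = 0)
    (x : V → R) : Posner.evalWords c l x ∈ I := by
  rw [← sum_permCoeff c hl]
  exact hI _ _ (isMultiId_permCoeff c hl h) fun j => x ((Fintype.equivFin V).symm j)

end convert

/-! ### Larger fields and smaller matrices -/

theorem hasMatIds_extension (K L : Type*) [Field K] [Field L] [Algebra K L] (n : ℕ) :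
    HasMatIds K n (Matrix (Fin n) (Fin n) L) := fun M a ha => (isMultiId_iff a).2 fun x => by
  refine (matrixEquivTensor (Fin n) K L).injective ?_
  rw [map_zero]
  exact (map_evalWords (matrixEquivTensor (Fin n) K L).toAlgHom a _ x).trans
    (evalWords_tensor a _ (isFull_ofFn M) ((isMultiId_iff a).1 ha) _)

/-- The corner embedding. -/
def corner {L : Type*} [Zero L] {m r : ℕ} (A : Matrix (Fin m) (Fin m) L) :
    Matrix (Fin (m + r)) (Fin (m + r)) L :=
  (Matrix.fromBlocks A 0 0 0).submatrix finSumFinEquiv.symm finSumFinEquiv.symm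

theorem corner_mul {L : Type*} [Semiring L] {m r : ℕ} (A B : Matrix (Fin m) (Fin m) L) :
    (corner (A * B) : Matrix (Fin (m + r)) (Fin (m + r)) L) = corner A * corner B := by
  simp [corner, Matrix.submatrix_mul_equiv, Matrix.fromBlocks_multiply]

theorem corner_injective {L : Type*} [Zero L] {m r : ℕ} {A B : Matrix (Fin m) (Fin m) L}
    (h : (corner A : Matrix (Fin (m + r)) (Fin (m + r)) L) = corner B) : A = B := by
  ext i j
  simpa [corner] using congrFun (congrFun h (i.castAdd r)) (j.castAdd r)

theorem hasMatIds_smaller (K : Type*) [Field K] (L : Type*) [Field L] [Algebra K L] {m n : ℕ}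
    (hmn : m ≤ n) : HasMatIds K n (Matrix (Fin m) (Fin m) L) := by
  obtain ⟨r, rfl⟩ : ∃ r, n = m + r := ⟨n - m, by omega⟩
  intro M a ha x
  rcases M with _ | M
  · rcases Nat.eq_zero_or_pos m with rfl | hm
    · exact Subsingleton.elim _ _
    · have h := ha Fin.elim0
      simp only [Fintype.sum_subsingleton _ (1 : Perm (Fin 0)), List.ofFn_zero, List.prod_nil]
        at h ⊢
      have : a 1 = 0 := by simpa using congrFun (congrFun h ⟨0, by omega⟩) ⟨0, by omega⟩
      rw [this, zero_smul]
  have h := hasMatIds_extension K L (m + r) _ a ha fun i => corner (x i)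
  have hprod : ∀ σ : Perm (Fin (M + 1)), (List.ofFn fun i => corner (r := r) (x (σ i))).prod =
      corner (List.ofFn fun i => x (σ i)).prod := fun σ => by
    have : ∀ (M : ℕ) (y : Fin (M + 1) → Matrix (Fin m) (Fin m) L),
        (List.ofFn fun i => corner (r := r) (y i)).prod = corner (List.ofFn y).prod := by
      intro M
      induction M with
      | zero => intro y; simp
      | succ M ih =>
        intro y
        rw [List.ofFn_succ, List.prod_cons, ih fun i => y i.succ, List.ofFn_succ (f := y),
          List.prod_cons, corner_mul]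
    exact this M fun i => x (σ i)
  simp only [hprod] at h
  refine corner_injective (r := r) ?_
  refine Eq.trans ?_ (h.trans ?_)
  · ext i j
    simp only [corner, Matrix.submatrix_apply, Matrix.sum_apply, Matrix.smul_apply]
    rcases finSumFinEquiv.symm i with i | i <;> rcases finSumFinEquiv.symm j with j | j <;>
      simp [Matrix.sum_apply]
  · ext i j
    rcases h' : finSumFinEquiv.symm i with i' | i' <;>
      rcases h'' : finSumFinEquiv.symm j with j' | j' <;> simp [corner, *]

/-! ### The identities of the central polynomial -/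

variable {n : ℕ}

/-- The variables of the identities. -/
abbrev DVar (n : ℕ) : Type := CVar n ⊕ Unit

/-- Exchange a slot with the further variable. -/
def swapSlot (i : Fin (n * n)) (v : CVar n) : DVar n :=
  if v = slot i then Sum.inr () else Sum.inl v

/-- The words saying that the values are central. -/
def commWord (t : (Perm (Fin (n * n)) × Fin (n * n)) ⊕ (Perm (Fin (n * n)) × Fin (n * n))) :
    List (DVar n) :=
  t.elim (fun t => (cWord t).map Sum.inl ++ [Sum.inr ()])
    fun t => Sum.inr () :: (cWord t).map Sum.inl

/-- Their coefficients. -/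
def commCoeff (Z : Type*) [CommRing Z]
    (t : (Perm (Fin (n * n)) × Fin (n * n)) ⊕ (Perm (Fin (n * n)) × Fin (n * n))) : Z :=
  t.elim (cCoeff Z) fun t => -cCoeff Z t

/-- The words of Cramer's rule. -/
def dualWord (t : (Perm (Fin (n * n)) × Fin (n * n)) ⊕
    (Fin (n * n) × (Perm (Fin (n * n)) × Fin (n * n)))) : List (DVar n) :=
  t.elim (fun t => (cWord t).map Sum.inl ++ [Sum.inr ()])
    fun t => (cWord t.2).map (swapSlot t.1) ++ [Sum.inl (slot t.1)]

/-- Their coefficients. -/
def dualCoeff (Z : Type*) [CommRing Z] (t : (Perm (Fin (n * n)) × Fin (n * n)) ⊕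
    (Fin (n * n) × (Perm (Fin (n * n)) × Fin (n * n)))) : Z :=
  t.elim (cCoeff Z) fun t => -cCoeff Z t.2

theorem isFull_commWord : IsFull (commWord (n := n)) := by
  rintro (t | t) <;> obtain ⟨hnd, hmem⟩ := isFull_cWord t <;>
    refine ⟨?_, fun v => ?_⟩
  · simpa [commWord, List.nodup_append] using hnd.map Sum.inl_injective
  · rcases v with v | u
    · simp [commWord, hmem v]
    · simp [commWord]
  · simpa [commWord] using hnd.map Sum.inl_injective
  · rcases v with v | u
    · simp [commWord, hmem v]
    · simp [commWord]

theorem swapSlot_injective (i : Fin (n * n)) : Function.Injective (swapSlot i) := by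
  intro v w h
  simp only [swapSlot] at h
  split_ifs at h with hv hw
  · rw [hv, hw]
  · exact Sum.inl_injective h

theorem isFull_dualWord : IsFull (dualWord (n := n)) := by
  rintro (t | ⟨i, t⟩) <;> obtain ⟨hnd, hmem⟩ := isFull_cWord t <;>
    refine ⟨?_, fun v => ?_⟩
  · simpa [dualWord, List.nodup_append] using hnd.map Sum.inl_injective
  · rcases v with v | u
    · simp [dualWord, hmem v]
    · simp [dualWord]
  · refine List.nodup_append.2 ⟨hnd.map (swapSlot_injective i), List.nodup_singleton _, ?_⟩
    intro a ha b hb e
    rw [List.mem_singleton] at hb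
    obtain ⟨v, -, hv⟩ := List.mem_map.1 ha
    simp only [swapSlot] at hv
    split_ifs at hv with h
    · simp [← hv, hb] at e
    · rw [← hv, hb] at e; exact h (Sum.inl_injective e)
  · simp only [dualWord, Sum.elim_inr, List.mem_append, List.mem_map, List.mem_singleton]
    rcases v with v | u
    · by_cases h : v = slot i
      · exact Or.inr (congrArg _ h)
      · exact Or.inl ⟨v, hmem v, by simp [swapSlot, h]⟩
    · exact Or.inl ⟨slot i, hmem _, by simp [swapSlot]⟩

variable {Z A : Type*} [CommRing Z] [Ring A] [Algebra Z A]

theorem evalWords_comm (x : DVar n → A) :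
    evalWords (commCoeff Z) commWord x =
      cPoly Z (fun v => x (Sum.inl v)) * x (Sum.inr ()) -
        x (Sum.inr ()) * cPoly Z fun v => x (Sum.inl v) := by
  simp [evalWords, cPoly, commWord, commCoeff, Fintype.sum_sum_type, Finset.sum_mul,
    Finset.mul_sum, List.map_map, Function.comp_def, sub_eq_add_neg]

theorem evalWords_dual (x : DVar n → A) :
    evalWords (dualCoeff Z) dualWord x =
      cPoly Z (fun v => x (Sum.inl v)) * x (Sum.inr ()) -
        ∑ i, cPoly Z (Function.update (fun v => x (Sum.inl v)) (slot i) (x (Sum.inr ()))) *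
          x (Sum.inl (slot i)) := by
  have hswap : ∀ i, (fun v => x (swapSlot i v)) =
      Function.update (fun v => x (Sum.inl v)) (slot i) (x (Sum.inr ())) := fun i => by
    funext v
    by_cases h : v = slot i
    · subst h; simp [swapSlot]
    · simp [swapSlot, h]
  simp [evalWords, cPoly, dualWord, dualCoeff, Fintype.sum_sum_type, Fintype.sum_prod_type,
    Finset.sum_mul, List.map_map, Function.comp_def, sub_eq_add_neg, ← hswap,
    Finset.sum_neg_distrib]

/-- **The centrality identity of matrices.** -/
theorem cPoly_comm_matrix {F : Type*} [Field F] (x : CVar n → Matrix (Fin n) (Fin n) F)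
    (r : Matrix (Fin n) (Fin n) F) : cPoly F x * r = r * cPoly F x := by
  rw [cPoly_eq_smul, Matrix.smul_mul, Matrix.mul_smul, one_mul, mul_one]

/-- **Cramer's rule for the central polynomial.** -/
theorem cPoly_dual_matrix {F : Type*} [Field F] (x : CVar n → Matrix (Fin n) (Fin n) F)
    (a : Matrix (Fin n) (Fin n) F) :
    cPoly F x * a = ∑ i, cPoly F (Function.update x (slot i) a) * x (slot i) := by
  obtain ⟨X, hX⟩ : ∃ X, X = fun i => x (slot i) := ⟨_, rfl⟩
  obtain ⟨Y, hY⟩ : ∃ Y, Y = fun j => x (filler j) := ⟨_, rfl⟩
  set bs := (Matrix.stdBasis F (Fin n) (Fin n)).reindex finProdFinEquiv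
  have hdual : altForm Y X • a = ∑ i, altForm Y (Function.update X i a) • X i := by
    refine bs.ext_elem fun j => ?_
    rw [(altForm Y).eq_smul_basis_det bs]
    have h := congrFun (Matrix.mulVec_cramer (bs.toMatrix X) (bs.repr a)) j
    simp only [Matrix.mulVec, dotProduct, Matrix.cramer_apply, Pi.smul_apply, smul_eq_mul] at h
    simp only [AlternatingMap.smul_apply, map_sum, map_smul, Finsupp.coe_finsetSum,
      Finset.sum_apply, Finsupp.smul_apply, smul_eq_mul, Module.Basis.det_apply]
    rw [mul_assoc, ← h, Finset.mul_sum]
    refine Finset.sum_congr rfl fun i _ => ?_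
    rw [Module.Basis.toMatrix_update, Module.Basis.toMatrix_apply]
    ring
  have hupd : ∀ i, cPoly F (Function.update x (slot i) a) =
      (altForm Y (Function.update X i a) * (x mid).trace) • (1 : Matrix (Fin n) (Fin n) F) :=
    fun i => by
    have h1 : (fun j => Function.update x (slot i) a (filler j)) = Y := by
      funext j; simp [hY, filler, slot]
    have h2 : (fun j => Function.update x (slot i) a (slot j)) = Function.update X i a := by
      funext j
      by_cases h : j = i
      · subst h; simp
      · simp [hX, slot, h]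
    have h3 : Function.update x (slot i) a mid = x mid := by simp [slot, mid]
    rw [cPoly_eq_smul, h1, h2, h3]
  rw [cPoly_eq_smul, ← hX, ← hY, Matrix.smul_mul, one_mul, mul_comm (altForm Y X), mul_smul, hdual,
    Finset.smul_sum]
  refine Finset.sum_congr rfl fun i _ => ?_
  rw [hupd, Matrix.smul_mul, one_mul, smul_smul, mul_comm, hX]

end FA.ArtinProcesi
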