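import Fermat.Agent.ArtinProcesi.Azumaya
import Fermat.Agent.Posner.Prime
import Fermat.Agent.RingIdentities.AmitsurLevitzki
import Mathlib.RingTheory.TwoSidedIdeal.Kernel
import Mathlib.RingTheory.Localization.Away.Basic

/-!
# The theorem of Artin and Procesi

An algebra with the identities of `n × n` matrices and no quotient with those of smaller matrices
is an Azumaya algebra, and its simple quotients have dimension `n ^ 2` over their centres. A prime
algebra with an identity becomes such an algebra after inverting one central element.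
-/

set_option autoImplicit false

noncomputable section

namespace FA.ArtinProcesi

open Equiv Matrix
open scoped TensorProduct
open FA.Regev (IsMultiId)
open FA.Posner

variable {K : Type*} [Field K] {n : ℕ}

section values

variable {R : Type*} [Ring R] [Algebra K R]

theorem HasMatIds.cPoly_comm (hR : HasMatIds K n R) (x : CVar n → R) (r : R) :
    cPoly ℤ x * r = r * cPoly ℤ x := by
  have h := hR.evalWords (commCoeff K) isFull_commWord
    (fun y => (evalWords_comm y).trans (sub_eq_zero.2 (cPoly_comm_matrix _ _)))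
    (Sum.elim x fun _ => r)
  rw [evalWords_comm, sub_eq_zero] at h
  simpa [cPoly_int] using h

theorem HasMatIds.cPoly_dual (hR : HasMatIds K n R) (x : CVar n → R) (a : R) :
    cPoly ℤ x * a = ∑ i, cPoly ℤ (Function.update x (slot i) a) * x (slot i) := by
  have h := hR.evalWords (dualCoeff K) isFull_dualWord
    (fun y => (evalWords_dual y).trans (sub_eq_zero.2 (cPoly_dual_matrix _ _)))
    (Sum.elim x fun _ => a)
  rw [evalWords_dual, sub_eq_zero] at h
  simpa [cPoly_int] using h

theorem HasMatIds.of_injective {S : Type*} [Ring S] [Algebra K S] (f : R →ₐ[K] S)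
    (hf : Function.Injective f) (hS : HasMatIds K n S) : HasMatIds K n R :=
  fun M a ha => (isMultiId_iff a).2 fun x => hf (by
    rw [map_evalWords, (isMultiId_iff a).1 (hS M a ha), map_zero])

theorem HasMatIds.of_surjective {S : Type*} [Ring S] [Algebra K S] (f : R →ₐ[K] S)
    (hf : Function.Surjective f) (hR : HasMatIds K n R) : HasMatIds K n S :=
  fun M a ha => (isMultiId_iff a).2 fun x => by
    obtain ⟨y, rfl⟩ : ∃ y : Fin M → R, (fun i => f (y i)) = x :=
      ⟨fun i => Function.surjInv hf (x i), funext fun i => Function.surjInv_eq hf _⟩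
    rw [← map_evalWords, (isMultiId_iff a).1 (hR M a ha), map_zero]

/-- The standard identity as a family of coefficients. -/
theorem exists_multiId (hR : HasMatIds K n R) :
    ∃ a : Perm (Fin (2 * n)) → K, IsMultiId R a ∧ a ≠ 0 := by
  refine ⟨fun σ => ((Perm.sign σ : ℤ) : K), hR _ _ fun x => ?_, fun h => ?_⟩
  · have key : ∀ (N : ℕ) (A : Fin N → Matrix (Fin n) (Fin n) K), N = 2 * Fintype.card (Fin n) →
        Fermat.Agent.RingIdentities.stdPoly A = 0 := fun N A h => by
      subst h
      exact Fermat.Agent.RingIdentities.stdPoly_eq_zero A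
    simpa [Fermat.Agent.RingIdentities.stdPoly, Int.cast_smul_eq_zsmul] using
      key _ x (by rw [Fintype.card_fin])
  · simpa using congrFun h 1

end values

section simple

variable {S : Type*} [Ring S] [IsSimpleRing S] [Algebra K S]

/-- **Simple algebras with the identities.** -/
theorem finite_finrank_le (hS : HasMatIds K n S) :
    Module.Finite (Subring.center S) S ∧ Module.finrank (Subring.center S) S ≤ n * n := by
  obtain ⟨a, hid, ha⟩ := exists_multiId hS
  obtain ⟨σ, hσ⟩ := Function.ne_iff.1 ha
  obtain ⟨m, hm, -⟩ := Ideal.exists_le_maximal (⊥ : Ideal S) bot_ne_top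
  have : IsSimpleModule S (S ⧸ m) := isSimpleModule_iff_isCoatom.2 (Ideal.isMaximal_def.1 hm)
  have : FaithfulSMul S (S ⧸ m) := by
    refine ⟨fun {q q'} h => ?_⟩
    let π : S →+* AddMonoid.End (S ⧸ m) := Module.toAddMonoidEnd S (S ⧸ m)
    have : Nontrivial (S ⧸ m) := IsSimpleModule.nontrivial S _
    have : Nontrivial (AddMonoid.End (S ⧸ m)) := ⟨⟨0, 1, fun e => by
      obtain ⟨y, hy⟩ := exists_ne (0 : S ⧸ m)
      exact hy (congrArg (fun f : AddMonoid.End (S ⧸ m) => f y) e).symm⟩⟩
    exact RingHom.injective π (AddMonoidHom.ext h)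
  obtain ⟨-, hfin, hrank⟩ := Fermat.Agent.KaplanskyPI.kaplansky_multilinear (M := S ⧸ m) hid
    (σ₀ := σ) (isUnit_iff_ne_zero.2 hσ)
  exact ⟨hfin, hrank.trans (by rw [Nat.mul_div_cancel_left _ two_pos, sq])⟩

variable [Module.Finite (Subring.center S) S]

/-- The splitting as an embedding of algebras. -/
theorem hasMatIds_of_finrank_le {k : ℕ} (hk : Module.finrank (Subring.center S) S ≤ k * k) :
    HasMatIds K k S := by
  obtain ⟨L, _, _, m, hD, -, ⟨e⟩, hinj⟩ := exists_splitting S
  have hmem : ∀ t : K, algebraMap K S t ∈ Subring.center S := fun t =>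
    Subring.mem_center_iff.2 fun r => (Algebra.commutes t r).symm
  let : Algebra K L := ((algebraMap (Subring.center S) L).comp
    ((algebraMap K S).codRestrict _ hmem)).toAlgebra
  let f₀ : S →+* Matrix (Fin m) (Fin m) L := e.toAlgHom.toRingHom.comp
    (Algebra.TensorProduct.includeRight (R := Subring.center S) (A := L) (B := S)).toRingHom
  let f : S →ₐ[K] Matrix (Fin m) (Fin m) L :=
    { f₀ with
      commutes' := fun t => by
        show e ((1 : L) ⊗ₜ[Subring.center S] algebraMap K S t) = _
        have h : (1 : L) ⊗ₜ[Subring.center S] algebraMap K S t =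
            algebraMap L (L ⊗[Subring.center S] S) (algebraMap K L t) := by
          rw [Algebra.TensorProduct.algebraMap_apply, Algebra.algebraMap_self, RingHom.id_apply,
            show algebraMap K L t = algebraMap (Subring.center S) L ⟨_, hmem t⟩ from rfl,
            Algebra.algebraMap_eq_smul_one (R := Subring.center S), TensorProduct.smul_tmul]
          congr 1
          exact (mul_one (algebraMap K S t)).symm
        rw [h, e.commutes]
        rfl }
  exact (hasMatIds_smaller K L (Nat.mul_self_le_mul_self_iff.1 (hD ▸ hk))).of_injective f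
    (e.injective.comp hinj)

/-- Small dimension: the polynomial vanishes. -/
theorem cPoly_eq_zero_of_finrank_lt (hlt : Module.finrank (Subring.center S) S < n * n)
    (x : CVar n → S) : cPoly ℤ x = 0 := by
  obtain ⟨L, _, _, m, hD, -, ⟨e⟩, hinj⟩ := exists_splitting S
  let f : S →+* Matrix (Fin m) (Fin m) L := e.toAlgHom.toRingHom.comp
    (Algebra.TensorProduct.includeRight (R := Subring.center S) (A := L) (B := S)).toRingHom
  refine (show Function.Injective f from e.injective.comp hinj) ?_
  rw [map_cPoly, ← cPoly_int (Z := L), map_zero]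
  exact cPoly_eq_zero (Nat.mul_self_lt_mul_self_iff.1 (hD ▸ hlt)) _

end simple

section main

variable {R : Type*} [Ring R] [Algebra K R]

/-- A simple quotient killing the values satisfies the smaller identities. -/
theorem hasMatIdsMod_ker (hR : HasMatIds K n R) {S : Type*} [Ring S] [IsSimpleRing S]
    [Algebra K S] (π : R →ₐ[K] S) (hπ : Function.Surjective π)
    (hzero : ∀ x : CVar n → R, π (cPoly ℤ x) = 0) :
    HasMatIdsMod K (n - 1) (TwoSidedIdeal.ker π) := by
  obtain ⟨hfin, hle⟩ := finite_finrank_le (HasMatIds.of_surjective π hπ hR)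
  have hne : Module.finrank (Subring.center S) S ≠ n * n := fun e => by
    obtain ⟨y, hy⟩ := exists_cPoly_ne_zero S e
    obtain ⟨x, rfl⟩ : ∃ x : CVar n → R, (fun v => π (x v)) = y :=
      ⟨fun v => Function.surjInv hπ (y v), funext fun v => Function.surjInv_eq hπ _⟩
    exact hy ((map_cPoly_alg π x).symm.trans (hzero x))
  obtain ⟨L, _, _, k, hD, -, -, -⟩ := exists_splitting S
  have hk : k < n := Nat.mul_self_lt_mul_self_iff.1 (hD ▸ lt_of_le_of_ne hle hne)
  intro M b hb x
  refine (TwoSidedIdeal.mem_ker _).2 ?_
  have := hasMatIds_of_finrank_le (K := K) (S := S) (k := n - 1)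
    (hD ▸ Nat.mul_self_le_mul_self (by omega)) M b hb fun i => π (x i)
  simpa [map_list_prod, List.map_ofFn, Function.comp_def] using this

/-- **The two forms of the hypothesis.** -/
theorem noSmallerQuotient_iff_span_eq_top (hn : 0 < n) (hR : HasMatIds K n R) :
    (∀ I : TwoSidedIdeal R, HasMatIdsMod K (n - 1) I → I = ⊤) ↔
      Ideal.span (Set.range fun x : CVar n → R => cPoly ℤ x) = ⊤ := by
  constructor
  · intro hno
    by_contra hJ
    obtain ⟨m, hm, hle⟩ := Ideal.exists_le_maximal _ hJ
    have : IsSimpleModule R (R ⧸ m) := isSimpleModule_iff_isCoatom.2 (Ideal.isMaximal_def.1 hm)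
    obtain ⟨a, hid, ha⟩ := exists_multiId hR
    obtain ⟨hsimp, -, -⟩ := image_simple (M := R ⧸ m) hid ha
    let π : R →ₐ[K] image K R (R ⧸ m) :=
      (Algebra.lsmul K K (R ⧸ m) : R →ₐ[K] Module.End K (R ⧸ m)).rangeRestrict
    have hπ : Function.Surjective π :=
      AlgHom.rangeRestrict_surjective (Algebra.lsmul K K (R ⧸ m) : R →ₐ[K] Module.End K (R ⧸ m))
    have hzero : ∀ x : CVar n → R, π (cPoly ℤ x) = 0 := fun x => by
      refine Subtype.ext (LinearMap.ext fun q => ?_)
      obtain ⟨r, rfl⟩ := Submodule.Quotient.mk_surjective m q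
      show cPoly ℤ x • (Submodule.Quotient.mk r : R ⧸ m) = 0
      rw [← Submodule.Quotient.mk_smul, smul_eq_mul, hR.cPoly_comm, Submodule.Quotient.mk_eq_zero]
      exact m.mul_mem_left _ (hle (Ideal.subset_span ⟨x, rfl⟩))
    have htop := hno _ (hasMatIdsMod_ker (S := image K R (R ⧸ m)) hR π hπ hzero)
    have h1 : π 1 = 0 := (TwoSidedIdeal.mem_ker _).1 (htop ▸ trivial)
    exact one_ne_zero ((map_one π).symm.trans h1)
  · intro hspan I hI
    refine (TwoSidedIdeal.one_mem_iff I).1 (TwoSidedIdeal.mem_asIdeal.1 ?_)
    have hle : Ideal.span (Set.range fun x : CVar n → R => cPoly ℤ x) ≤ I.asIdeal := by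
      refine Ideal.span_le.2 ?_
      rintro _ ⟨x, rfl⟩
      have := hI.evalWords (cCoeff K) isFull_cWord (fun y => cPoly_eq_zero (by omega) y) x
      exact TwoSidedIdeal.mem_asIdeal.2 (by rwa [← cPoly, cPoly_int] at this)
    exact hle (hspan ▸ Submodule.mem_top)

/-- **The theorem of Artin and Procesi.** -/
theorem artin_procesi (hn : 0 < n) (hR : HasMatIds K n R)
    (hno : ∀ I : TwoSidedIdeal R, HasMatIdsMod K (n - 1) I → I = ⊤) :
    IsAzumaya (Subring.center R) R :=
  isAzumaya_of_identities hR.cPoly_comm hR.cPoly_dual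
    ((noSmallerQuotient_iff_span_eq_top hn hR).1 hno)

/-- **The simple quotients.** -/
theorem finrank_simple_quotient (hn : 0 < n) (hR : HasMatIds K n R)
    (hno : ∀ I : TwoSidedIdeal R, HasMatIdsMod K (n - 1) I → I = ⊤)
    {S : Type*} [Ring S] [IsSimpleRing S] [Algebra K S] (π : R →ₐ[K] S)
    (hπ : Function.Surjective π) :
    Module.Finite (Subring.center S) S ∧ Module.finrank (Subring.center S) S = n * n := by
  obtain ⟨hfin, hle⟩ := finite_finrank_le (hR.of_surjective π hπ)
  refine ⟨hfin, hle.eq_of_not_lt fun hlt => ?_⟩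
  have hJ : Ideal.span (Set.range fun x : CVar n → R => cPoly ℤ x) ≤ RingHom.ker π.toRingHom := by
    refine Ideal.span_le.2 ?_
    rintro _ ⟨x, rfl⟩
    exact (map_cPoly_alg π x).trans (cPoly_eq_zero_of_finrank_lt hlt _)
  rw [(noSmallerQuotient_iff_span_eq_top hn hR).1 hno] at hJ
  exact one_ne_zero ((map_one π).symm.trans (hJ (Submodule.mem_top (x := 1))))

end main

section prime

variable {R : Type*} [Ring R] [Algebra K R] [Nontrivial R]

/-- **Prime algebras.** If the localisation at the centre has dimension `n ^ 2`, the algebra has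
the identities of `n × n` matrices, and inverting one central element makes it Azumaya. -/
theorem prime_generic_azumaya (hR : IsPrimeAlg R) [IsDomain (Subring.center R)] {d : ℕ}
    {a : Perm (Fin d) → K} (hid : IsMultiId R a) (ha : a ≠ 0)
    (hdim : Module.finrank (FractionRing (Subring.center R))
      (FractionRing (Subring.center R) ⊗[Subring.center R] R) = n * n) :
    HasMatIds K n R ∧ ∃ c : Subring.center R, c ≠ 0 ∧
      Function.Injective (fun r : R => (1 : Localization.Away c) ⊗ₜ[Subring.center R] r) ∧
      IsAzumaya (Subring.center (Localization.Away c ⊗[Subring.center R] R))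
        (Localization.Away c ⊗[Subring.center R] R) := by
  obtain ⟨hinj, hsimple, hcentral, hfin, -⟩ := posner_localization hR hid ha
  set Z := Subring.center R
  set F := FractionRing Z
  set Q := F ⊗[Z] R
  let : Field (Subring.center Q) := (IsSimpleRing.isField_center Q).toField
  let i : F →+* Subring.center Q := (algebraMap F Q).codRestrict _ fun f =>
    Subring.mem_center_iff.2 fun q => (Algebra.commutes f q).symm
  have hi : Function.Bijective i := ⟨RingHom.injective i, fun z => by
    obtain ⟨f, hf⟩ := Algebra.mem_bot.1 (hcentral.out (Subalgebra.mem_center_iff.2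
      (Subring.mem_center_iff.1 z.2) : (z : Q) ∈ Subalgebra.center F Q))
    exact ⟨f, Subtype.ext hf⟩⟩
  have hdimQ : Module.finrank (Subring.center Q) Q = n * n := by
    rw [← hdim]
    exact (Algebra.finrank_eq_of_equiv_equiv (RingEquiv.ofBijective i hi) (RingEquiv.refl Q)
      (RingHom.ext fun f => rfl)).symm
  have hfinQ : Module.Finite (Subring.center Q) Q := by
    obtain ⟨s, hs⟩ := hfin.fg_top
    refine ⟨⟨s, eq_top_iff.2 fun q _ => ?_⟩⟩
    refine Submodule.span_induction (fun y hy => Submodule.subset_span hy) (Submodule.zero_mem _)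
      (fun _ _ _ _ => Submodule.add_mem _) (fun f y _ hy => ?_) (hs ▸ Submodule.mem_top : q ∈ _)
    rw [show f • y = i f • y from Algebra.smul_def f y]
    exact Submodule.smul_mem _ _ hy
  let ι : R →+* Q := (Algebra.TensorProduct.includeRight : R →ₐ[Z] Q).toRingHom
  have hids : HasMatIds K n R := by
    let : Algebra K Q := (ι.comp (algebraMap K R)).toAlgebra' fun t q => by
      induction q using TensorProduct.induction_on with
      | zero => simp
      | tmul f r =>
        show (1 : F) ⊗ₜ[Z] algebraMap K R t * f ⊗ₜ[Z] r =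
          f ⊗ₜ[Z] r * (1 : F) ⊗ₜ[Z] algebraMap K R t
        rw [Algebra.TensorProduct.tmul_mul_tmul, Algebra.TensorProduct.tmul_mul_tmul, one_mul,
          mul_one, Algebra.commutes]
      | add p q hp hq => rw [mul_add, add_mul, hp, hq]
    exact (hasMatIds_of_finrank_le (K := K) (S := Q) hdimQ.le).of_injective
      { ι with commutes' := fun t => rfl } hinj
  obtain ⟨x, hx⟩ : ∃ x : CVar n → R, cPoly ℤ x ≠ 0 := by
    by_contra! h
    obtain ⟨y, hy⟩ := exists_cPoly_ne_zero Q hdimQ
    refine hy ?_
    rw [← cPoly_int (Z := Z)]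
    exact evalWords_tensor _ _ isFull_cWord (fun r => (cPoly_int r).trans (h r)) y
  obtain ⟨c, hc⟩ : ∃ c : Z, (c : R) = cPoly ℤ x :=
    ⟨⟨_, Subring.mem_center_iff.2 fun g => (hids.cPoly_comm x g).symm⟩, rfl⟩
  have hc0 : c ≠ 0 := fun e => hx (by rw [← hc, e]; rfl)
  refine ⟨hids, c, hc0, fun r r' h => ?_, ?_⟩
  · obtain ⟨⟨z, k, rfl⟩, hz⟩ := (IsLocalizedModule.eq_iff_exists (Submonoid.powers c)
      (TensorProduct.mk Z (Localization.Away c) R 1)).1 h
    refine sub_eq_zero.1 (center_regular hR (pow_ne_zero k hc0) ?_)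
    rw [mul_sub, sub_eq_zero]
    exact hz
  set B := Localization.Away c ⊗[Z] R
  refine isAzumaya_of_identities (n := n) (fun y b => ?_) (fun y b => ?_) ?_
  · have h := evalWords_tensor (Z := Z) (B := Localization.Away c) (commCoeff Z) _ isFull_commWord
      (fun z => by rw [evalWords_comm, cPoly_int, sub_eq_zero]; exact hids.cPoly_comm _ _)
      (Sum.elim y fun _ => b)
    rw [evalWords_comm, sub_eq_zero] at h
    simpa [cPoly_int] using h
  · have h := evalWords_tensor (Z := Z) (B := Localization.Away c) (dualCoeff Z) _ isFull_dualWord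
      (fun z => by
        rw [evalWords_dual, sub_eq_zero]
        simpa [cPoly_int] using hids.cPoly_dual (fun v => z (Sum.inl v)) (z (Sum.inr ())))
      (Sum.elim y fun _ => b)
    rw [evalWords_dual, sub_eq_zero] at h
    simpa [cPoly_int] using h
  · refine Ideal.eq_top_of_isUnit_mem _ (x := cPoly ℤ fun v =>
      (Algebra.TensorProduct.includeRight : R →ₐ[Z] B) (x v))
      (Ideal.subset_span ⟨_, (cPoly_int _).symm⟩) ?_
    have h := map_cPoly_alg (Algebra.TensorProduct.includeRight : R →ₐ[Z] B) x
    have h' := (cPoly_int (Z := ℤ) _).trans h.symm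
    rw [h', ← hc,
      show (c : R) = algebraMap Z R c from rfl, AlgHom.commutes,
      IsScalarTower.algebraMap_apply Z (Localization.Away c) B]
    exact (IsLocalization.Away.algebraMap_isUnit c).map _

end prime

end FA.ArtinProcesi
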